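import Mathlib

namespace FermatAgent.IntClosureVal

open Polynomial

variable {K : Type*} [Field K]

lemma coeff_iter_divX (f : ℤ[X]) (k i : ℕ) : (divX^[k] f).coeff i = f.coeff (i + k) := by
  induction k generalizing i with
  | zero => simp
  | succ k ih =>
    rw [Function.iterate_succ_apply', coeff_divX, ih]
    congr 1
    omega

lemma isIntegral_mul_aeval_iter_divX (x : K) (f : ℤ[X]) (hf : aeval x f = 0) (k : ℕ) :
    IsIntegral ℤ (x * aeval x (divX^[k] f)) := by
  classical
  set n := f.natDegree with hn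
  set g := divX^[k] f with hg
  have hgc : ∀ i, g.coeff i = f.coeff (i + k) := coeff_iter_divX f k
  let M : Submodule ℤ K := Submodule.map (aeval x).toLinearMap (degreeLT ℤ (n + 1))
  refine isIntegral_of_smul_mem_submodule M ?_ ?_ _ ?_
  · intro h
    have h1 : (1 : K) ∈ M := by
      refine ⟨1, ?_, by simp⟩
      rw [SetLike.mem_coe, mem_degreeLT]
      exact lt_of_le_of_lt degree_one_le (by exact_mod_cast Nat.succ_pos n)
    rw [h] at h1
    simp at h1
  · refine Submodule.FG.map _ ?_
    rw [degreeLT_eq_span_X_pow]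
    exact Submodule.fg_span (Finset.finite_toSet _)
  · set z := x * aeval x g with hz
    have hle : degreeLT ℤ (n + 1) ≤
        Submodule.comap ((LinearMap.mulLeft ℤ z).comp (aeval x).toLinearMap) M := by
      rw [degreeLT_eq_span_X_pow, Submodule.span_le]
      intro q hq
      rw [Finset.mem_coe, Finset.mem_image] at hq
      obtain ⟨j, hj, rfl⟩ := hq
      rw [Finset.mem_range] at hj
      rw [SetLike.mem_coe, Submodule.mem_comap]
      by_cases hjk : j + 1 < k
      · refine ⟨X ^ (j + 1) * g, ?_, ?_⟩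
        · rw [SetLike.mem_coe, mem_degreeLT, degree_lt_iff_coeff_zero]
          intro m hm
          rw [coeff_X_pow_mul']
          split_ifs with h
          · rw [hgc]
            exact coeff_eq_zero_of_natDegree_lt (by omega)
          · rfl
        · simp [hz, pow_succ]
          ring
      · refine ⟨-(X ^ (j + 1 - k) * (f - X ^ k * g)), ?_, ?_⟩
        · rw [SetLike.mem_coe, mem_degreeLT, degree_neg, degree_lt_iff_coeff_zero]
          intro m hm
          rw [coeff_X_pow_mul']
          split_ifs with h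
          · rw [coeff_sub, coeff_X_pow_mul', if_pos (by omega), hgc]
            have : m - (j + 1 - k) - k + k = m - (j + 1 - k) := by omega
            rw [this, sub_self]
          · rfl
        · have e : x ^ (j + 1 - k) * x ^ k = x ^ j * x := by
            rw [← pow_add, ← pow_succ]
            congr 1
            omega
          simp only [AlgHom.toLinearMap_apply, map_neg, map_mul, map_pow, aeval_X, map_sub, hf,
            LinearMap.comp_apply, LinearMap.mulLeft_apply, hz]
          linear_combination (aeval x g) * e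
    rintro _ ⟨p, hp, rfl⟩
    exact hle hp

theorem exists_not_mem_isIntegral_mul_or_inv_of_isPrimitive
    (Q : Ideal (integralClosure ℤ K)) [Q.IsPrime]
    (x : K) (hx : ∃ f : ℤ[X], f.IsPrimitive ∧ aeval x f = 0) (hx0 : x ≠ 0) :
    (∃ s : integralClosure ℤ K, s ∉ Q ∧ IsIntegral ℤ ((s : K) * x)) ∨
    (∃ s : integralClosure ℤ K, s ∉ Q ∧ IsIntegral ℤ ((s : K) * x⁻¹)) := by
  obtain ⟨f, hprim, hf⟩ := hx
  by_contra hcon
  push Not at hcon
  obtain ⟨h1, h2⟩ := hcon
  set y : ℕ → K := fun k => aeval x (divX^[k] f) with hy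
  have hz : ∀ k, IsIntegral ℤ (x * y (k + 1)) := fun k =>
    isIntegral_mul_aeval_iter_divX x f hf (k + 1)
  have hrec : ∀ k, y k = algebraMap ℤ K (f.coeff k) + x * y (k + 1) := by
    intro k
    simp only [hy]
    conv_lhs => rw [← X_mul_divX_add (divX^[k] f)]
    rw [Function.iterate_succ_apply', coeff_iter_divX]
    simp
    ring
  have hyint : ∀ k, IsIntegral ℤ (y k) := fun k => by
    rw [hrec]
    exact isIntegral_algebraMap.add (hz k)
  have hyQ : ∀ k, (⟨y k, hyint k⟩ : integralClosure ℤ K) ∈ Q := by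
    intro k
    rcases Nat.eq_zero_or_pos k with rfl | hk
    · have h0 : y 0 = 0 := hf
      have : (⟨y 0, hyint 0⟩ : integralClosure ℤ K) = 0 := Subtype.ext h0
      rw [this]
      exact Q.zero_mem
    · obtain ⟨k, rfl⟩ : ∃ j, k = j + 1 := ⟨k - 1, by omega⟩
      by_contra h
      refine h1 _ h ?_
      have := hz k
      rwa [mul_comm] at this
  have hzQ : ∀ k, (⟨x * y (k + 1), hz k⟩ : integralClosure ℤ K) ∈ Q := by
    intro k
    by_contra h
    refine h2 _ h ?_
    have e : x * y (k + 1) * x⁻¹ = y (k + 1) := by field_simp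
    change IsIntegral ℤ (x * y (k + 1) * x⁻¹)
    rw [e]
    exact hyint _
  have hcoeff : ∀ k, algebraMap ℤ (integralClosure ℤ K) (f.coeff k) ∈ Q := by
    intro k
    have : algebraMap ℤ (integralClosure ℤ K) (f.coeff k) =
        ⟨y k, hyint k⟩ - ⟨x * y (k + 1), hz k⟩ := by
      apply Subtype.ext
      change algebraMap ℤ K (f.coeff k) = y k - x * y (k + 1)
      rw [hrec k]
      ring
    rw [this]
    exact Q.sub_mem (hyQ k) (hzQ k)
  set P : Ideal ℤ := Q.comap (algebraMap ℤ (integralClosure ℤ K)) with hP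
  have hPprime : P.IsPrime := Ideal.comap_isPrime _ _
  obtain ⟨d, hd⟩ := IsPrincipalIdealRing.principal P
  have hdvd : C d ∣ f := by
    rw [C_dvd_iff_dvd_coeff]
    intro i
    have : f.coeff i ∈ P := hcoeff i
    rw [hd] at this
    exact Submodule.mem_span_singleton.mp this |>.elim fun c hc => ⟨c, by rw [← hc]; simp [mul_comm]⟩
  have hu : IsUnit d := hprim d hdvd
  apply hPprime.ne_top
  rw [hd]
  exact Ideal.span_singleton_eq_top.mpr hu

theorem exists_not_mem_isIntegral_mul_or_inv [CharZero K]
    (Q : Ideal (integralClosure ℤ K)) [Q.IsPrime]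
    (x : K) (hx : IsAlgebraic ℤ x) (hx0 : x ≠ 0) :
    (∃ s : integralClosure ℤ K, s ∉ Q ∧ IsIntegral ℤ ((s : K) * x)) ∨
    (∃ s : integralClosure ℤ K, s ∉ Q ∧ IsIntegral ℤ ((s : K) * x⁻¹)) := by
  obtain ⟨p, hp0, hp⟩ := hx
  exact exists_not_mem_isIntegral_mul_or_inv_of_isPrimitive Q x
    ⟨p.primPart, isPrimitive_primPart p, aeval_primPart_eq_zero hp0 hp⟩ hx0

end FermatAgent.IntClosureVal
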