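import Mathlib
import Fermat.Prelude.Def_EllipticCurve_FrobeniusTrace
import Fermat.Agent.Lib.IntClosureValuation

set_option autoImplicit false

namespace FermatAgent.Frob

open scoped Pointwise

local notation "Qb" => AlgebraicClosure ℚ
local notation "Gq" => (AlgebraicClosure ℚ ≃ₐ[ℚ] AlgebraicClosure ℚ)
local notation "Bz" => integralClosure ℤ (AlgebraicClosure ℚ)

theorem isAlgebraic_Qb : Algebra.IsAlgebraic ℚ Qb := AlgebraicClosure.isAlgebraic ℚ

theorem isAlgClosure_Qb : IsAlgClosure ℚ Qb :=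
  (inferInstance : @IsAlgClosure ℚ (AlgebraicClosure ℚ) _ _ (AlgebraicClosure.instAlgebra ℚ) _)

theorem isGalois_Qb : IsGalois ℚ Qb := by
  have := isAlgebraic_Qb
  have := isAlgClosure_Qb
  infer_instance

attribute [local instance] isAlgebraic_Qb isAlgClosure_Qb isGalois_Qb

/-- The Galois action on algebraic integers. -/
@[instance_reducible]
noncomputable def actB : MulSemiringAction Gq Bz :=
  IsIntegralClosure.MulSemiringAction ℤ ℚ Qb Bz

attribute [local instance] actB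

lemma coe_smul (g : Gq) (b : Bz) : ((g • b : Bz) : Qb) = g (b : Qb) :=
  algebraMap_galRestrict_apply ℤ g b

theorem smulComm_Bz : SMulCommClass Gq ℤ Bz where
  smul_comm g n b := by
    apply Subtype.ext
    rw [coe_smul]
    simp [coe_smul]

attribute [local instance] smulComm_Bz

lemma isInvariant : Algebra.IsInvariant ℤ Bz Gq := by
  refine ⟨fun b hb => ?_⟩
  have h1 : (b : Qb) ∈ Set.range (algebraMap ℚ Qb) := by
    rw [InfiniteGalois.mem_range_algebraMap_iff_fixed]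
    intro g
    rw [← coe_smul, hb g]
  obtain ⟨q, hq⟩ := h1
  have hint : IsIntegral ℤ q := by
    have : IsIntegral ℤ (algebraMap ℚ Qb q) := hq ▸ b.2
    exact (isIntegral_algebraMap_iff (algebraMap ℚ Qb).injective).mp this
  obtain ⟨a, ha⟩ := IsIntegrallyClosed.isIntegral_iff.mp hint
  refine ⟨a, Subtype.ext ?_⟩
  rw [← hq, ← ha]
  simp

attribute [local instance] isInvariant

/-- Discrete topology on the algebraic integers. -/
@[instance_reducible]
def topB : TopologicalSpace Bz := ⊥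

attribute [local instance] topB

theorem discrete_Bz : DiscreteTopology Bz := ⟨rfl⟩

attribute [local instance] discrete_Bz

theorem continuousSMul_Bz : ContinuousSMul Gq Bz := by
  rw [continuousSMul_iff_stabilizer_isOpen]
  intro b
  have h := stabilizer_isOpen_of_isIntegral (K := ℚ) (L := Qb) (b : Qb)
  convert h using 1
  ext g
  simp only [SetLike.mem_coe, MulAction.mem_stabilizer_iff]
  constructor
  · intro hg
    rw [AlgEquiv.smul_def, ← coe_smul, hg]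
  · intro hg
    apply Subtype.ext
    rw [coe_smul]
    exact hg

attribute [local instance] continuousSMul_Bz

theorem exists_maximal_over (ℓ : ℕ) (hℓ : ℓ.Prime) :
    ∃ Q : Ideal Bz, Q.IsMaximal ∧ (ℓ : Bz) ∈ Q := by
  have hP : (Ideal.span {(ℓ : ℤ)}).IsMaximal :=
    PrincipalIdealRing.isMaximal_of_irreducible (Nat.prime_iff_prime_int.mp hℓ).irreducible
  have hinj : Function.Injective (algebraMap ℤ Bz) := by
    intro a b hab
    have := congrArg (fun x : Bz => (x : Qb)) hab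
    simpa using this
  obtain ⟨Q, hQ, hQP⟩ := Ideal.exists_ideal_over_maximal_of_isIntegral (S := Bz)
    (Ideal.span {(ℓ : ℤ)}) (by
      rw [(RingHom.injective_iff_ker_eq_bot _).mp hinj]; exact bot_le)
  refine ⟨Q, hQ, ?_⟩
  have : (ℓ : ℤ) ∈ Q.comap (algebraMap ℤ Bz) := hQP ▸ Ideal.subset_span rfl
  simpa using this

theorem exists_stabilizer_frob (ℓ : ℕ) (hℓ : ℓ.Prime) (Q : Ideal Bz) [Q.IsPrime]
    (hQ : (ℓ : Bz) ∈ Q) :
    ∃ τ : Gq, τ • Q = Q ∧ ∀ b : Bz, τ • b - b ^ ℓ ∈ Q := by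
  have : Fact ℓ.Prime := ⟨hℓ⟩
  have : CharP (Bz ⧸ Q) ℓ := by
    obtain ⟨c, hc⟩ := CharP.exists (Bz ⧸ Q)
    have h0 : ((ℓ : ℕ) : Bz ⧸ Q) = 0 := by
      have : (Ideal.Quotient.mk Q (ℓ : Bz)) = 0 := Ideal.Quotient.eq_zero_iff_mem.mpr hQ
      simpa using this
    have hdvd : c ∣ ℓ := (CharP.cast_eq_zero_iff (Bz ⧸ Q) c ℓ).mp h0
    rcases (Nat.dvd_prime hℓ).mp hdvd with h1 | h1
    · exact absurd h1 (CharP.char_ne_one (Bz ⧸ Q) c)
    · exact h1 ▸ hc
  let F : (Bz ⧸ Q) →ₐ[ℤ ⧸ Q.under ℤ] (Bz ⧸ Q) :=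
    { toRingHom := frobenius (Bz ⧸ Q) ℓ
      commutes' := fun c => by
        obtain ⟨n, rfl⟩ := Ideal.Quotient.mk_surjective c
        simp }
  have hinj : Function.Injective F := frobenius_inj (Bz ⧸ Q) ℓ
  have hsurj : Function.Surjective F := by
    intro y
    obtain ⟨b, rfl⟩ := Ideal.Quotient.mk_surjective y
    obtain ⟨c, hc⟩ := IsAlgClosed.exists_pow_nat_eq (b : Qb) hℓ.pos
    have hcint : IsIntegral ℤ c := IsIntegral.of_pow hℓ.pos (hc ▸ b.2)
    refine ⟨Ideal.Quotient.mk Q ⟨c, hcint⟩, ?_⟩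
    show (Ideal.Quotient.mk Q ⟨c, hcint⟩) ^ ℓ = _
    rw [← map_pow]
    congr 1
    exact Subtype.ext hc
  let Fe : (Bz ⧸ Q) ≃ₐ[ℤ ⧸ Q.under ℤ] (Bz ⧸ Q) := AlgEquiv.ofBijective F ⟨hinj, hsurj⟩
  obtain ⟨τ, hτ⟩ := Ideal.Quotient.stabilizerHom_surjective_of_profinite (G := Gq)
    (Q.under ℤ) Q Fe
  refine ⟨τ.1, τ.2, fun b => ?_⟩
  have h2 := congrArg (fun f => f (Ideal.Quotient.mk Q b)) hτ
  simp only [Ideal.Quotient.stabilizerHom_apply] at h2
  rw [← Ideal.Quotient.eq, map_pow]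
  exact h2

theorem one_not_mem (Q : Ideal Bz) [hQ : Q.IsPrime] : (1 : Bz) ∉ Q :=
  fun h => hQ.ne_top ((Ideal.eq_top_iff_one _).mpr h)

theorem isAlgebraic_int (x : Qb) : IsAlgebraic ℤ x :=
  (IsFractionRing.isAlgebraic_iff ℤ ℚ Qb).mpr (Algebra.IsAlgebraic.isAlgebraic x)

/-- The valuation subring attached to a prime of the algebraic integers. -/
noncomputable def valSub (Q : Ideal Bz) [hQ : Q.IsPrime] : ValuationSubring Qb where
  carrier := {x | ∃ s : Bz, s ∉ Q ∧ IsIntegral ℤ ((s : Qb) * x)}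
  mul_mem' := by
    rintro x y ⟨s, hs, hsx⟩ ⟨t, ht, hty⟩
    refine ⟨s * t, fun h => (hQ.mem_or_mem h).elim hs ht, ?_⟩
    have : ((s * t : Bz) : Qb) * (x * y) = ((s : Qb) * x) * ((t : Qb) * y) := by
      push_cast; ring
    rw [this]; exact hsx.mul hty
  one_mem' := ⟨1, one_not_mem Q, by simpa using isIntegral_one⟩
  add_mem' := by
    rintro x y ⟨s, hs, hsx⟩ ⟨t, ht, hty⟩
    refine ⟨s * t, fun h => (hQ.mem_or_mem h).elim hs ht, ?_⟩
    have : ((s * t : Bz) : Qb) * (x + y) =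
        (t : Qb) * ((s : Qb) * x) + (s : Qb) * ((t : Qb) * y) := by
      push_cast; ring
    rw [this]; exact (t.2.mul hsx).add (s.2.mul hty)
  zero_mem' := ⟨1, one_not_mem Q, by simpa using isIntegral_zero⟩
  neg_mem' := by
    rintro x ⟨s, hs, hsx⟩
    exact ⟨s, hs, by rw [mul_neg]; exact hsx.neg⟩
  mem_or_inv_mem' := by
    intro x
    by_cases hx0 : x = 0
    · left
      subst hx0
      exact ⟨1, one_not_mem Q, by simpa using isIntegral_zero⟩
    · exact @FermatAgent.IntClosureVal.exists_not_mem_isIntegral_mul_or_inv _ _ _ Q hQ x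
        (isAlgebraic_int x) hx0

theorem mem_valSub_iff (Q : Ideal Bz) [Q.IsPrime] (x : Qb) :
    x ∈ valSub Q ↔ ∃ s : Bz, s ∉ Q ∧ IsIntegral ℤ ((s : Qb) * x) := Iff.rfl

theorem coe_mem_valSub (Q : Ideal Bz) [Q.IsPrime] (b : Bz) : (b : Qb) ∈ valSub Q :=
  ⟨1, one_not_mem Q, by rw [OneMemClass.coe_one, one_mul]; exact b.2⟩

theorem coe_mem_nonunits (Q : Ideal Bz) [Q.IsPrime] (b : Bz) (hb : b ∈ Q) :
    (b : Qb) ∈ (valSub Q).nonunits := by
  rw [ValuationSubring.mem_nonunits_iff_or]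
  by_cases hb0 : (b : Qb) = 0
  · exact Or.inl hb0
  · right
    rintro ⟨s, hs, hsb⟩
    apply hs
    have : s = b * ⟨(s : Qb) * (b : Qb)⁻¹, hsb⟩ := by
      apply Subtype.ext
      push_cast
      field_simp
    rw [this]
    exact Ideal.mul_mem_right _ _ hb

theorem map_mem_valSub (Q : Ideal Bz) [Q.IsPrime] (σ : Gq) (hσ : σ • Q = Q) (x : Qb)
    (hx : x ∈ valSub Q) : σ x ∈ valSub Q := by
  obtain ⟨s, hs, hsx⟩ := hx
  refine ⟨σ • s, ?_, ?_⟩
  · intro h
    rw [← hσ, Ideal.smul_mem_pointwise_smul_iff] at h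
    exact hs h
  · rw [coe_smul, ← map_mul]
    exact hsx.map σ

theorem mem_decomp (Q : Ideal Bz) [Q.IsPrime] (σ : Gq) (hσ : σ • Q = Q) :
    σ ∈ (valSub Q).decompositionSubgroup ℚ := by
  rw [MulAction.mem_stabilizer_iff]
  have hσ' : σ⁻¹ • Q = Q := by
    conv_lhs => rw [← hσ]
    rw [inv_smul_smul]
  ext x
  rw [ValuationSubring.mem_pointwise_smul_iff_inv_smul_mem]
  constructor
  · intro h
    have h2 := map_mem_valSub Q σ hσ _ h
    have e : σ (σ⁻¹ x) = x := by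
      rw [← AlgEquiv.mul_apply, mul_inv_cancel, AlgEquiv.one_apply]
    rwa [AlgEquiv.smul_def, e] at h2
  · intro h
    exact map_mem_valSub Q σ⁻¹ hσ' x h

theorem residue_coe_pow (Q : Ideal Bz) [Q.IsPrime] (ℓ : ℕ) (σ : Gq)
    (hσ : σ ∈ (valSub Q).decompositionSubgroup ℚ) (hfrob : ∀ b : Bz, σ • b - b ^ ℓ ∈ Q)
    (c : Bz) :
    (⟨σ, hσ⟩ : (valSub Q).decompositionSubgroup ℚ) •
        IsLocalRing.residue (valSub Q) ⟨(c : Qb), coe_mem_valSub Q c⟩ =
      (IsLocalRing.residue (valSub Q) ⟨(c : Qb), coe_mem_valSub Q c⟩) ^ ℓ := by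
  rw [← IsLocalRing.ResidueField.residue_smul, ← map_pow, ← sub_eq_zero, ← map_sub,
    IsLocalRing.residue_eq_zero_iff, ← ValuationSubring.coe_mem_nonunits_iff]
  have h := coe_mem_nonunits Q _ (hfrob c)
  have e : ((σ • c - c ^ ℓ : Bz) : Qb) = σ (c : Qb) - (c : Qb) ^ ℓ := by
    push_cast
    rw [coe_smul]
  rw [e] at h
  exact h

theorem exists_frobenius (ℓ : ℕ) (hℓ : ℓ.Prime) :
    ∃ (A : ValuationSubring (AlgebraicClosure ℚ))
      (σ : AlgebraicClosure ℚ ≃ₐ[ℚ] AlgebraicClosure ℚ),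
      A.LiesOverPrime ℓ ∧ A.IsFrobeniusAt σ ℓ := by
  obtain ⟨Q, hQmax, hℓQ⟩ := exists_maximal_over ℓ hℓ
  have : Q.IsPrime := hQmax.isPrime
  obtain ⟨σ, hσQ, hfrob⟩ := exists_stabilizer_frob ℓ hℓ Q hℓQ
  refine ⟨valSub Q, σ, ?_, mem_decomp Q σ hσQ, ?_⟩
  · have := coe_mem_nonunits Q (ℓ : Bz) hℓQ
    simpa [ValuationSubring.LiesOverPrime] using this
  · intro x
    obtain ⟨a, rfl⟩ := IsLocalRing.residue_surjective x
    obtain ⟨a, s, hs, hsa⟩ := a
    set g : (valSub Q).decompositionSubgroup ℚ := ⟨σ, mem_decomp Q σ hσQ⟩ with hg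
    set aA : valSub Q := ⟨a, ⟨s, hs, hsa⟩⟩ with haA
    set sA : valSub Q := ⟨(s : Qb), coe_mem_valSub Q s⟩ with hsA
    have hs0 : (s : Qb) ≠ 0 := by
      intro h0
      apply hs
      have : s = 0 := Subtype.ext h0
      rw [this]
      exact Q.zero_mem
    have hres : IsLocalRing.residue (valSub Q) sA ≠ 0 := by
      rw [Ne, IsLocalRing.residue_eq_zero_iff, ← ValuationSubring.coe_mem_nonunits_iff,
        ValuationSubring.mem_nonunits_iff_or]
      push Not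
      refine ⟨hs0, s, hs, ?_⟩
      rw [mul_inv_cancel₀ hs0]
      exact isIntegral_one
    have hprod : sA * aA = ⟨((⟨(s : Qb) * a, hsa⟩ : Bz) : Qb), coe_mem_valSub Q _⟩ :=
      Subtype.ext rfl
    have h1 := residue_coe_pow Q ℓ σ (mem_decomp Q σ hσQ) hfrob ⟨(s : Qb) * a, hsa⟩
    have h2 := residue_coe_pow Q ℓ σ (mem_decomp Q σ hσQ) hfrob s
    rw [← hprod, map_mul, smul_mul', mul_pow] at h1
    rw [← hsA] at h2
    rw [h2] at h1
    exact mul_left_cancel₀ (pow_ne_zero ℓ hres) h1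

end FermatAgent.Frob
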